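/-
helper38 (P-SS2, second route for row 1060 (E1) GEN3): generation of the model field of level
`M' q q` over the model field of level `M' q` along both degeneracy maps, hence
`modelE1 M' q : Fermat.Agent.H1.SS2.ModelE1Statement M' q` UNCONDITIONALLY, and the unconditional
form of NORM-ID + THETA-ID (row 1046).

* degree `q` along `α` and `β`: helper1 (`modelDeg3_of_al2`) + helper79 (`al2Exists`);
* generation = prime degree + non-membership:
  - `β`-side: the image of `β` consists of series in `t^q`;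
  - `α`-side: apply `W = W_{q²}` (`IsAL2`), which exchanges `α` and `β`.
-/
import Fermat.Agent.H1.SS2.DegBeta
import Fermat.Agent.H79.SS2.AL2

set_option autoImplicit false
set_option linter.style.haveILetI false
set_option linter.unusedSectionVars false
set_option linter.unusedVariables false

noncomputable section

open Polynomial ModularCurve AlgebraicCurve IntermediateField

namespace Fermat.Agent.H38.SS2

open Fermat.Agent.H22.KL Fermat.Agent.H82.SS Fermat.Agent.H86.SS2 Fermat.Agent.H1.SS2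

/-! ### Generic: prime degree and a non-trivial element -/

section generic

variable {F E : Type*} [Field F] [Field E] [Algebra F E]

/-- In an extension of prime degree `q`, every element outside the base field generates, and
every element is a polynomial of degree `< q` in it. -/
theorem gen3_of_prime_finrank [FiniteDimensional F E] (q : ℕ) (hq : q.Prime)
    (hrank : Module.finrank F E = q) (x : E) (hx : x ∉ Set.range (algebraMap F E)) :
    ∀ z : E, ∃ p : F[X], p.natDegree < q ∧ z = aeval x p := by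
  have hint : IsIntegral F x := IsIntegral.of_finite F x
  have hprime : (Module.finrank F E).Prime := by rw [hrank]; exact hq
  haveI := IntermediateField.isSimpleOrder_of_finrank_prime F E hprime
  have htop : F⟮x⟯ = ⊤ := by
    rcases eq_bot_or_eq_top F⟮x⟯ with h | h
    · exfalso
      rw [IntermediateField.adjoin_simple_eq_bot_iff, IntermediateField.mem_bot] at h
      exact hx h
    · exact h
  let pb₀ : PowerBasis F F⟮x⟯ := IntermediateField.adjoin.powerBasis hint
  let e : F⟮x⟯ ≃ₐ[F] E := (IntermediateField.equivOfEq htop).trans IntermediateField.topEquiv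
  let pb : PowerBasis F E := pb₀.map e
  have hgen : pb.gen = x := by
    show e pb₀.gen = x
    rw [IntermediateField.adjoin.powerBasis_gen]
    rfl
  have hdim : pb.dim = q := by
    have h1 : pb.dim = Module.finrank F E := pb.finrank.symm
    rw [h1, hrank]
  intro z
  obtain ⟨f, hf, hz⟩ := pb.exists_eq_aeval z
  rw [hgen] at hz
  rw [hdim] at hf
  exact ⟨f, hf, hz⟩

end generic


/-! ### The model fields -/

section model

variable (K₁ : Type) [Field K₁] [Algebra ℚ K₁]

/-- a series with a nonzero coefficient at an exponent prime to `q` is not a series in `t^q` -/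
theorem coeffEmb_ne_qExpand (q : ℕ) [NeZero q] (h₀ : LaurentSeries ℚ) (hoff : HasCoeffOff q h₀)
    (y : LaurentSeries K₁) : coeffEmb K₁ h₀ ≠ qExpand K₁ q y := by
  obtain ⟨k, hk, hne⟩ := hoff
  intro h
  have h1 := congrArg (fun z : LaurentSeries K₁ => z.coeff k) h
  simp only [coeffEmb_coeff, qExpand_coeff_of_not_dvd q _ hk] at h1
  exact hne ((map_eq_zero _).mp h1)

variable (L q : ℕ) [NeZero L] [NeZero q]

/-- **GEN3 along `β`**, from the degree. -/
theorem gen3_beta (hq : q.Prime)
    (hdeg : FiniteAlong K₁ (heckeBetaBar K₁ L q) ∧ finrankAlong K₁ (heckeBetaBar K₁ L q) = q)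
    (h₀ : LaurentSeries ℚ) (hoff : HasCoeffOff q h₀)
    (H₀ : ModelField K₁ L) (hH₀ : (H₀ : LaurentSeries K₁) = coeffEmb K₁ h₀)
    (z : ModelField K₁ (L * q)) :
    ∃ p : (ModelField K₁ L)[X], p.natDegree < q ∧
      z = p.eval₂ (heckeBetaBar K₁ L q : ModelField K₁ L →+* ModelField K₁ (L * q))
        (heckeAlphaBar K₁ L q H₀) := by
  letI alg : Algebra (ModelField K₁ L) (ModelField K₁ (L * q)) :=
    (heckeBetaBar K₁ L q).toRingHom.toAlgebra
  haveI hfin : Module.Finite (ModelField K₁ L) (ModelField K₁ (L * q)) := hdeg.1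
  have hrank : Module.finrank (ModelField K₁ L) (ModelField K₁ (L * q)) = q := hdeg.2
  have hx : heckeAlphaBar K₁ L q H₀ ∉
      Set.range (algebraMap (ModelField K₁ L) (ModelField K₁ (L * q))) := by
    rintro ⟨g, hg⟩
    have halg : algebraMap (ModelField K₁ L) (ModelField K₁ (L * q)) =
        (heckeBetaBar K₁ L q).toRingHom := RingHom.algebraMap_toAlgebra _
    rw [halg, AlgHom.toRingHom_eq_coe, RingHom.coe_coe] at hg
    have h1 := congrArg (fun w : ModelField K₁ (L * q) => (w : LaurentSeries K₁)) hg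
    simp only [coe_heckeBetaBar, coe_heckeAlphaBar] at h1
    rw [hH₀] at h1
    exact coeffEmb_ne_qExpand K₁ q h₀ hoff _ h1.symm
  obtain ⟨p, hp, hz⟩ := gen3_of_prime_finrank q hq hrank _ hx z
  refine ⟨p, hp, ?_⟩
  rw [hz, Polynomial.aeval_def, RingHom.algebraMap_toAlgebra]
  rfl

end model


section alpha

variable (K₁ : Type) [Field K₁] [Algebra ℚ K₁] (M' q : ℕ) [NeZero M'] [NeZero q]

/-- **GEN3 along `α`**, from the degree and `W_{q²}`. -/
theorem gen3_alpha (hq : q.Prime)
    (hdeg : FiniteAlong K₁ (heckeAlphaBar K₁ (M' * q) q) ∧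
      finrankAlong K₁ (heckeAlphaBar K₁ (M' * q) q) = q)
    (Wq : ModelField K₁ (M' * q) ≃ₐ[K₁] ModelField K₁ (M' * q))
    (W : ModelField K₁ (M' * q * q) ≃ₐ[K₁] ModelField K₁ (M' * q * q))
    (hW : IsAL2 K₁ M' q Wq W)
    (h₀ : LaurentSeries ℚ) (hmem : h₀ ∈ modularFunctionFieldFull M') (hoff : HasCoeffOff q h₀)
    (H₁ : ModelField K₁ (M' * q))
    (hH₁ : (H₁ : LaurentSeries K₁) = coeffEmb K₁ (qExpand ℚ q h₀))
    (z : ModelField K₁ (M' * q * q)) :
    ∃ p : (ModelField K₁ (M' * q))[X], p.natDegree < q ∧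
      z = p.eval₂ (heckeAlphaBar K₁ (M' * q) q :
          ModelField K₁ (M' * q) →+* ModelField K₁ (M' * q * q))
        (heckeBetaBar K₁ (M' * q) q H₁) := by
  letI alg : Algebra (ModelField K₁ (M' * q)) (ModelField K₁ (M' * q * q)) :=
    (heckeAlphaBar K₁ (M' * q) q).toRingHom.toAlgebra
  haveI hfin : Module.Finite (ModelField K₁ (M' * q)) (ModelField K₁ (M' * q * q)) := hdeg.1
  have hrank : Module.finrank (ModelField K₁ (M' * q)) (ModelField K₁ (M' * q * q)) = q :=
    hdeg.2
  have hx : heckeBetaBar K₁ (M' * q) q H₁ ∉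
      Set.range (algebraMap (ModelField K₁ (M' * q)) (ModelField K₁ (M' * q * q))) := by
    rintro ⟨g, hg⟩
    have halg : algebraMap (ModelField K₁ (M' * q)) (ModelField K₁ (M' * q * q)) =
        (heckeAlphaBar K₁ (M' * q) q).toRingHom := RingHom.algebraMap_toAlgebra _
    rw [halg, AlgHom.toRingHom_eq_coe, RingHom.coe_coe] at hg
    obtain ⟨h, hh⟩ : ∃ h : ModelField K₁ M', (h : LaurentSeries K₁) = coeffEmb K₁ h₀ :=
      ⟨⟨coeffEmb K₁ h₀, coeffEmb_mem_laurentBaseChange K₁ hmem⟩, rfl⟩
    have hH₁' : H₁ = heckeBetaBar K₁ M' q h := by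
      apply Subtype.ext
      rw [hH₁, coe_heckeBetaBar, hh, coeffEmb, ModularCurve.coeffMap_qExpand]
    have h2 : Wq H₁ = heckeAlphaBar K₁ M' q h := by
      rw [hH₁']
      exact hW.al.2 h
    have h3 := congrArg W hg
    rw [hW.alpha, hW.beta, h2] at h3
    have h4 := congrArg (fun w : ModelField K₁ (M' * q * q) => (w : LaurentSeries K₁)) h3
    simp only [coe_heckeBetaBar, coe_heckeAlphaBar] at h4
    rw [hh] at h4
    exact coeffEmb_ne_qExpand K₁ q h₀ hoff _ h4.symm
  obtain ⟨p, hp, hz⟩ := gen3_of_prime_finrank q hq hrank _ hx z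
  refine ⟨p, hp, ?_⟩
  rw [hz, Polynomial.aeval_def, RingHom.algebraMap_toAlgebra]
  rfl

end alpha

/-- **(E1)**, unconditional: DEG3 + GEN3 at level `M' q`. -/
theorem modelE1 (M' q : ℕ) [NeZero M'] [NeZero q] : ModelE1Statement M' q := by
  intro hq hcop
  have hdeg := modelDeg3_of_al2 M' q hq hcop (Fermat.Agent.H79.SS2.al2Exists M' q)
  refine ⟨hdeg, ?_, ?_⟩
  · intro h₀ hoff K₁ _ _ _ H₀ hH₀ z
    exact gen3_beta K₁ (M' * q) q hq (hdeg K₁).2 h₀ hoff H₀ hH₀ z
  · intro h₀ hmem hoff K₁ _ _ _ H₁ hH₁ z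
    obtain ⟨Wq, hWq⟩ := Fermat.Agent.H62.SS.modelAtkinLehnerExists M' q hcop K₁
    obtain ⟨W, hW⟩ := Fermat.Agent.H79.SS2.al2Exists M' q hcop K₁ Wq hWq
    exact gen3_alpha K₁ M' q hq (hdeg K₁).1 Wq W hW h₀ hmem hoff H₁ hH₁ z

end Fermat.Agent.H38.SS2
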