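/-
helper38 (P-SS2 row 1046, THETA-ID + NORM-ID), part 3 (Mathlib only): the norm of a generator.

`E / F` finite of degree `q`, `x ∈ E` a generator (`E = F[x]`), `P ∈ F[X]` monic of degree `q`
with `P(x) = 0`.  Then `P` is the minimal polynomial of `x` and
`N_{E/F}(x - c) = (-1)^q P(c)` for every `c ∈ F`.
-/
import Mathlib

set_option autoImplicit false

open Polynomial IntermediateField

namespace Fermat.Agent.H38.SS2

variable {F E : Type*} [Field F] [Field E] [Algebra F E]

/-- if every element of `E` is a polynomial in `x`, then `F⟮x⟯ = ⊤` -/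
theorem adjoin_simple_eq_top_of_gen (x : E) (hgen : ∀ z : E, ∃ p : F[X], z = aeval x p) :
    F⟮x⟯ = ⊤ := by
  rw [eq_top_iff]
  intro z _
  obtain ⟨p, rfl⟩ := hgen z
  have h1 : aeval x p ∈ Algebra.adjoin F {x} := Polynomial.aeval_mem_adjoin_singleton F x
  exact IntermediateField.algebra_adjoin_le_adjoin F _ h1

/-- a monic polynomial of degree `[E : F]` killing a generator is its minimal polynomial -/
theorem minpoly_eq_of_gen [FiniteDimensional F E] (q : ℕ) (hfin : Module.finrank F E = q)
    (x : E) (htop : F⟮x⟯ = ⊤) (P : F[X]) (hP : P.Monic) (hdeg : P.natDegree = q)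
    (hroot : aeval x P = 0) : minpoly F x = P := by
  have hint : IsIntegral F x := IsIntegral.of_finite F x
  have h1 : (minpoly F x).natDegree = q := by
    rw [← IntermediateField.adjoin.finrank hint, htop, IntermediateField.finrank_top', hfin]
  have h2 : minpoly F x ∣ P := minpoly.dvd F x hroot
  exact (Polynomial.eq_of_monic_of_dvd_of_natDegree_le (minpoly.monic hint) hP h2
    (by rw [h1, hdeg])).symm ▸ rfl

/-- **the norm of a generator minus a constant** -/
theorem norm_sub_of_gen [FiniteDimensional F E] (q : ℕ) (hfin : Module.finrank F E = q)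
    (x : E) (htop : F⟮x⟯ = ⊤) (P : F[X]) (hP : P.Monic) (hdeg : P.natDegree = q)
    (hroot : aeval x P = 0) (c : F) :
    Algebra.norm F (x - algebraMap F E c) = (-1) ^ q * P.eval c := by
  have hint : IsIntegral F x := IsIntegral.of_finite F x
  have hmin : minpoly F x = P := minpoly_eq_of_gen q hfin x htop P hP hdeg hroot
  set y : E := x - algebraMap F E c with hy
  have hinty : IsIntegral F y := IsIntegral.of_finite F y
  have htopy : F⟮y⟯ = ⊤ := by
    rw [eq_top_iff, ← htop]
    apply IntermediateField.adjoin_le_iff.mpr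
    intro z hz
    rw [Set.mem_singleton_iff] at hz
    subst hz
    have h1 : z = y + algebraMap F E c := by rw [hy]; ring
    rw [h1]
    exact add_mem (IntermediateField.mem_adjoin_simple_self F y) (F⟮y⟯.algebraMap_mem c)
  have hminy : minpoly F y = P.comp (X + C c) := by
    rw [hy, minpoly.sub_algebraMap x c, hmin]
  -- power basis with generator `y`
  let pb₀ : PowerBasis F F⟮y⟯ := IntermediateField.adjoin.powerBasis hinty
  let e : F⟮y⟯ ≃ₐ[F] E := (IntermediateField.equivOfEq htopy).trans IntermediateField.topEquiv
  let pb : PowerBasis F E := pb₀.map e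
  have hgen : pb.gen = y := by
    show e pb₀.gen = y
    rw [IntermediateField.adjoin.powerBasis_gen]
    rfl
  have hdim : pb.dim = q := by
    have h1 : pb.dim = Module.finrank F E := pb.finrank.symm
    rw [h1, hfin]
  have h := Algebra.PowerBasis.norm_gen_eq_coeff_zero_minpoly pb
  rw [hgen, hdim, hminy] at h
  rw [h]
  congr 1
  rw [Polynomial.coeff_zero_eq_eval_zero, Polynomial.eval_comp]
  simp

end Fermat.Agent.H38.SS2
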