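/-
helper38 (P-SS2 row 1046, THETA-ID + NORM-ID), part 4 (series over `ℤ`): `u` itself is a root of
the Hecke polynomial `(heckeU q u)(t ↦ t^q)` (the factor `b = 0` of the product formula), and
the cofactor `P*`.
-/
import Fermat.Agent.H8.SS.FrobPoly

set_option autoImplicit false
set_option linter.style.haveILetI false
set_option linter.unusedSectionVars false

noncomputable section

open Polynomial ModularCurve

namespace Fermat.Agent.H38.SS2

open Fermat.Agent.H8.SS Fermat.Agent.H27

variable (q : ℕ) [NeZero q] [hq : Fact q.Prime]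

/-- `u` is a root of `(frobPoly q u)(t ↦ t^q)`. -/
theorem frobPoly_qExpand_eval_self (u : LaurentSeries ℤ) :
    ((frobPoly q u).map (qExpand ℤ q)).eval u = 0 := by
  have hμ : IsPrimitiveRoot (Complex.exp (2 * Real.pi * Complex.I / q)) q :=
    Complex.isPrimitiveRoot_exp q hq.out.ne_zero
  set f : ℤ →+* ℂ := Int.castRingHom ℂ with hf
  have hfinj : Function.Injective f := RingHom.injective_int f
  have hιinj := Fermat.Agent.H67.coeffMap_injective_of_injective f hfinj
  apply hιinj
  rw [map_zero]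
  have hcomm : (coeffMap f).comp (qExpand ℤ q) = (qExpand ℂ q).comp (coeffMap f) := by
    ext x : 1
    simp [ModularCurve.coeffMap_qExpand]
  have h1 : coeffMap f (((frobPoly q u).map (qExpand ℤ q)).eval u) =
      (((frobPoly q u).map (qExpand ℤ q)).map (coeffMap f)).eval (coeffMap f u) := by
    rw [Polynomial.eval_map (coeffMap f) (coeffMap f u), Polynomial.eval₂_at_apply]
  rw [h1, Polynomial.map_map, hcomm, ← Polynomial.map_map, frobPoly_map]
  set ζ : ℂˣ := Units.mk0 _ (hμ.ne_zero hq.out.ne_zero) with hζ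
  have hζp : IsPrimitiveRoot (ζ : ℂ) q := hμ
  rw [frobPoly_map_qExpand q ζ hζp, Polynomial.eval_prod]
  apply Finset.prod_eq_zero (Finset.mem_range.mpr hq.out.pos)
  rw [pow_zero, eval_sub, eval_X, eval_C]
  have h2 : twist (1 : ℂˣ) (coeffMap f u) = coeffMap f u := by
    ext n
    rw [twist_coeff, one_zpow, Units.val_one, one_mul]
  rw [h2, sub_self]

/-- `u` is a root of `(heckeU q u)(t ↦ t^q)`. -/
theorem heckeU_qExpand_eval_self (u : LaurentSeries ℤ) :
    ((heckeU q u).map (qExpand ℤ q)).eval u = 0 := by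
  rw [heckeU, Polynomial.map_mul, eval_mul, frobPoly_qExpand_eval_self, mul_zero]

/-- `u(t^(q²))` is a root of `(heckeU q u)(t ↦ t^q)`. -/
theorem heckeU_qExpand_eval_two (u : LaurentSeries ℤ) :
    ((heckeU q u).map (qExpand ℤ q)).eval (qExpand ℤ q (qExpand ℤ q u)) = 0 := by
  rw [Polynomial.eval_map (qExpand ℤ q) (qExpand ℤ q (qExpand ℤ q u)),
    Polynomial.eval₂_at_apply, heckeU_eval, map_zero]

/-- **The cofactor** `P*`: `(X - u) P* = (heckeU q u)(t ↦ t^q)`, monic of degree `q`, with root
`u(t^(q²))` when `u = t⁻¹ + …`. -/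
theorem exists_cofactor (u : LaurentSeries ℤ) (hu1 : u.coeff (-1) = 1) :
    ∃ Pst : Polynomial (LaurentSeries ℤ), Pst.Monic ∧ Pst.natDegree = q ∧
      (X - C u) * Pst = (heckeU q u).map (qExpand ℤ q) ∧
      Pst.eval (qExpand ℤ q (qExpand ℤ q u)) = 0 := by
  set P : Polynomial (LaurentSeries ℤ) := (heckeU q u).map (qExpand ℤ q) with hP
  have hroot : P.IsRoot u := heckeU_qExpand_eval_self q u
  have hmul : (X - C u) * (P /ₘ (X - C u)) = P := Polynomial.mul_divByMonic_eq_iff_isRoot.mpr hroot
  have hPm : P.Monic := (heckeU_monic q u).map _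
  have hPd : P.natDegree = q + 1 := by
    rw [hP, (heckeU_monic q u).natDegree_map, heckeU_natDegree]
  have hm : (P /ₘ (X - C u)).Monic := by
    have h1 : ((X - C u) * (P /ₘ (X - C u))).Monic := by rw [hmul]; exact hPm
    exact (monic_X_sub_C u).of_mul_monic_left h1
  refine ⟨P /ₘ (X - C u), hm, ?_, hmul, ?_⟩
  · have h1 := congrArg Polynomial.natDegree hmul
    rw [(monic_X_sub_C u).natDegree_mul hm, natDegree_X_sub_C, hPd] at h1
    omega
  · have h2 := heckeU_qExpand_eval_two q u
    rw [← hP, ← hmul, eval_mul, eval_sub, eval_X, eval_C] at h2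
    have hne : qExpand ℤ q (qExpand ℤ q u) - u ≠ 0 := by
      intro h0
      have h3 := congrArg (fun z : LaurentSeries ℤ => z.coeff (-1)) h0
      simp only [HahnSeries.coeff_sub, HahnSeries.coeff_zero, hu1] at h3
      have hnd : ¬ (q : ℤ) ∣ (-1) := by
        intro hd
        have h4 : (q : ℤ) ∣ 1 := (Int.dvd_neg).mp hd
        have h5 := Int.eq_one_of_dvd_one (by positivity) h4
        have h6 : q = 1 := by exact_mod_cast h5
        exact hq.out.one_lt.ne' h6
      rw [qExpand_coeff_of_not_dvd q _ hnd] at h3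
      omega
    exact (mul_eq_zero.mp h2).resolve_left hne

end Fermat.Agent.H38.SS2
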