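/-
helper38 (P-SS2 row 1046, THETA-ID + NORM-ID), part 1: **Kronecker's relation for the Hauptmodul
of level 4 as an identity of polynomials** (helper8's `exists_kronecker_h4Z` with the link to the
Hecke polynomial kept):

`D(H)^n · heckeU q H = D(H)^n · kronU q H + q · Ψ₀(H, ·)`,  `D(x) = x (x + 16)`, `Ψ₀ ∈ ℤ[X][Y]`.
-/
import Fermat.Agent.H8.SS.Haupt4Kronecker

set_option autoImplicit false
set_option linter.style.haveILetI false
set_option linter.unusedSimpArgs false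

noncomputable section

open ModularCurve Fermat.Agent.H27 Fermat.Agent.H17 Fermat.Agent.H17.ESD IntermediateField
  Polynomial

namespace Fermat.Agent.H38.SS2

open Fermat.Agent.H8.SS

local notation "Kbar" => AlgebraicClosure ℚ

variable (q : ℕ) [hq : Fact q.Prime]

/-- **Kronecker's relation for the Hauptmodul of level 4, polynomial form with the link to the
Hecke polynomial**: for an odd prime `q` there are `n`, `Ψ₀ ∈ ℤ[X][Y]` of `Y`-degree `≤ q` and
`Ψ ∈ ℤ((t))[Y]` with `heckeU q H = kronU q H + q Ψ` and `Ψ₀(H, Y) = (H (H + 16))^n Ψ(Y)`. -/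
theorem exists_kronecker_h4Z_link (hq2 : q ≠ 2) :
    ∃ (n : ℕ) (Ψ₀ : Polynomial (Polynomial ℤ)) (Ψ : Polynomial (LaurentSeries ℤ)),
      Ψ₀.natDegree ≤ q ∧ Ψ.natDegree ≤ q ∧
      heckeU q h4Z = kronU q h4Z + (q : ℤ) • Ψ ∧
      Ψ₀.map (evalAt h4Z) = Polynomial.C ((h4Z * (h4Z + 16)) ^ n) * Ψ := by
  have hq4 : ¬ q ∣ 4 := by
    intro h
    have h2 : q ∣ 2 ^ 2 := by norm_num; exact h
    have := (Nat.prime_dvd_prime_iff_eq hq.out Nat.prime_two).mp (hq.out.dvd_of_dvd_pow h2)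
    exact hq2 this
  have hmem : coeffMap (Int.castRingHom Kbar) h4Z ∈ modularFunctionFieldBar 4 :=
    h4S_mem_bar 4 dvd_rfl
  obtain ⟨Ψ, δ, hdeg, hΨmem, hΨ, -, -, -, -⟩ := exists_kroneckerU_of_mem q 4 hq4 h4Z hmem
  have hintH : IntJ ℤ h4Z := by
    have := intJ_h4S ℤ
    rwa [h4S_int] at this
  have hq0 : (q : ℤ) ≠ 0 := by exact_mod_cast hq.out.ne_zero
  have hex : ∀ i, ∃ (s : ℕ) (P₀ : Polynomial ℤ),
      (h4Z ^ 4 * (h4Z + 16)) ^ s * Ψ.coeff i = evalAt h4Z P₀ := by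
    intro i
    apply exists_poly_of_intJ_mem (q : ℤ) hq0 (Ψ.coeff i) ?_ (hΨmem i)
    have h := remainder_coeff_intJ q h4Z hintH Ψ hΨ i
    rwa [zsmul_eq_mul] at h
  choose s P hsP using hex
  set N : ℕ := ∑ i ∈ Finset.range (q + 1), 4 * s i with hN
  let Q : ℕ → Polynomial ℤ := fun i =>
    (Polynomial.X * (Polynomial.X + 16)) ^ (N - 4 * s i) * (Polynomial.X + 16) ^ (3 * s i) * P i
  have hQ : ∀ i ∈ Finset.range (q + 1),
      evalAt h4Z (Q i) = (h4Z * (h4Z + 16)) ^ N * Ψ.coeff i := by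
    intro i hi
    have hle : 4 * s i ≤ N := by
      rw [hN]
      exact Finset.single_le_sum (f := fun i => 4 * s i) (fun _ _ => Nat.zero_le _) hi
    have hQi : evalAt h4Z (Q i) =
        (h4Z * (h4Z + 16)) ^ (N - 4 * s i) * (h4Z + 16) ^ (3 * s i) * evalAt h4Z (P i) := by
      simp only [Q, map_mul, map_pow, map_add, evalAt_h4Z_X, map_ofNat]
    rw [hQi]
    exact denominators_aux h4Z 16 (Ψ.coeff i) _ (s i) _ N hle rfl (hsP i)
  let Ψ₀ : Polynomial (Polynomial ℤ) :=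
    ∑ i ∈ Finset.range (q + 1), Polynomial.C (Q i) * Polynomial.X ^ i
  have hΨ₀deg : Ψ₀.natDegree ≤ q := by
    apply Polynomial.natDegree_sum_le_of_forall_le
    intro i hi
    refine (Polynomial.natDegree_C_mul_X_pow_le _ _).trans ?_
    have := Finset.mem_range.mp hi
    omega
  have hΨ₀ : Ψ₀.map (evalAt h4Z) = Polynomial.C ((h4Z * (h4Z + 16)) ^ N) * Ψ := by
    ext i : 1
    rw [Polynomial.coeff_C_mul, Polynomial.coeff_map, Polynomial.finsetSum_coeff]
    simp only [Polynomial.coeff_C_mul, Polynomial.coeff_X_pow, mul_ite, mul_one, mul_zero]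
    rw [Finset.sum_ite_eq (Finset.range (q + 1)) i (fun j => Q j)]
    split_ifs with hi
    · exact hQ i hi
    · rw [Finset.mem_range, not_lt] at hi
      rw [map_zero, Polynomial.coeff_eq_zero_of_natDegree_lt (by omega), mul_zero]
  exact ⟨N, Ψ₀, Ψ, hΨ₀deg, hdeg, hΨ, hΨ₀⟩

end Fermat.Agent.H38.SS2
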