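/-
helper38 (P-SS2 row 1046, THETA-ID + NORM-ID), part 2: **THETA-ID** (series over `ℤ`).

`H = h4S ℤ` the Hauptmodul of level 4, `H1 = H(t^q)`, `Y1 = H - H1^q`, `θ = t d/dt`,
`D(x) = x (x + 16)`.  If `(X - H) · P* = (heckeU q H)(t ↦ t^q)` then

  `D(H1)^m · P*(H) · θH = q · (θH)(t^q) · (D(H1)^m · Y1 - q · R(H1, H))`

with `R ∈ ℤ[X][Y]` (inner variable `↦ H1`, outer variable `↦ H`).  I.e.
`P*(H) = q Θ (Y1 - q R1)`, `Θ = (θH)(t^q) / θH`, `R1 = R(H1, H) / D(H1)^m`.

Proof: chain rule for `θ` applied to `P(H) = 0`, `P = (heckeU q H)(t ↦ t^q)` (helper6's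
`theta_eval_map`), with the coefficients of `heckeU q H` written as rational functions of `H`
(`exists_kronecker_h4Z_link`).
-/
import Fermat.Agent.H38.SS2.KronLink
import Fermat.Agent.H6.SS2.NormZGen
import Fermat.Agent.H86.SS2.Emb3Defs

set_option autoImplicit false
set_option linter.style.haveILetI false
set_option linter.unusedSimpArgs false
set_option linter.unusedSectionVars false

noncomputable section

open Polynomial ModularCurve

namespace Fermat.Agent.H38.SS2

open Fermat.Agent.H8.SS Fermat.Agent.H6.SS2 Fermat.Agent.H27 Fermat.Agent.H86.SS2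

/-! ### Generalities on `thetaSum` and `evalAt` -/

section general

variable (q : ℕ) [NeZero q] {R : Type*} [CommRing R]

theorem thetaSum_eq_sum (u : LaurentSeries R) (P : Polynomial (LaurentSeries R)) (n : ℕ)
    (h : P.natDegree < n) :
    thetaSum q u P = ∑ i ∈ Finset.range n, qExpand R q (theta (P.coeff i)) * u ^ i := by
  unfold thetaSum
  exact Polynomial.sum_over_range' P (fun i => by simp) n h

theorem thetaSum_zsmul (u : LaurentSeries R) (P : Polynomial (LaurentSeries R)) (c : ℤ) :
    thetaSum q u (c • P) = (c : LaurentSeries R) * thetaSum q u P := by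
  have h1 : (c • P).natDegree < P.natDegree + 1 :=
    Nat.lt_succ_of_le (Polynomial.natDegree_smul_le c P)
  rw [thetaSum_eq_sum q u (c • P) (P.natDegree + 1) h1,
    thetaSum_eq_sum q u P (P.natDegree + 1) (Nat.lt_succ_self _), Finset.mul_sum]
  refine Finset.sum_congr rfl fun i _ => ?_
  rw [Polynomial.coeff_smul, map_zsmul, map_zsmul, zsmul_eq_mul, mul_assoc]

/-- chain rule for `θ` and integer polynomials -/
theorem theta_evalAt (z : LaurentSeries R) (Q : Polynomial ℤ) :
    theta (evalAt z Q) = evalAt z (derivative Q) * theta z := by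
  induction Q using Polynomial.induction_on' with
  | add P Q hP hQ => rw [map_add, map_add, hP, hQ, Polynomial.derivative_add, map_add, add_mul]
  | monomial n a =>
    have h1 : ∀ (k : ℕ) (b : ℤ), evalAt z (monomial k b) = (b : LaurentSeries R) * z ^ k := by
      intro k b
      simp [evalAt, Polynomial.eval₂_monomial]
    have hC : ∀ b : ℤ, theta ((b : LaurentSeries R)) = 0 := by
      intro b
      have : ((b : ℤ) : LaurentSeries R) = HahnSeries.C (b : R) := by simp
      rw [this, theta_C]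
    rw [h1, Polynomial.derivative_monomial, h1, theta_mul, hC, zero_mul, zero_add]
    rcases n with _ | n
    · simp
    · rw [theta_pow]
      simp only [Nat.add_sub_cancel]
      push_cast
      ring

theorem qExpand_evalAt (z : LaurentSeries R) (Q : Polynomial ℤ) :
    qExpand R q (evalAt z Q) = evalAt (qExpand R q z) Q := by
  have h := comp_evalAt (qExpand R q) z
  exact RingHom.congr_fun h Q

end general

/-! ### THETA-ID -/

section main

variable (q : ℕ) [NeZero q] [hq : Fact q.Prime]

/-- `thetaSum` of the Kronecker polynomial. -/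
theorem thetaSum_kronU (H : LaurentSeries ℤ) :
    thetaSum q H (kronU q H) =
      qExpand ℤ q (theta H) *
        (-(H - qExpand ℤ q H ^ q) +
          (q : LaurentSeries ℤ) * qExpand ℤ q H ^ (q - 1) * (qExpand ℤ q H - H ^ q)) := by
  have hq1 : q - 1 + 1 = q := Nat.sub_add_cancel hq.out.one_le
  have hk : kronU q H = monomial (q + 1) (1 : LaurentSeries ℤ) + monomial q (-(H ^ q)) +
      monomial 1 (-H) + monomial 0 (H ^ (q + 1)) := by
    rw [kronU]
    simp only [← Polynomial.C_mul_X_pow_eq_monomial, map_neg, map_one, map_pow, pow_one,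
      pow_zero, mul_one, one_mul]
    ring
  have hθq : theta (H ^ q) = (q : LaurentSeries ℤ) * H ^ (q - 1) * theta H := by
    have h := theta_pow H (q - 1)
    rw [hq1] at h
    exact h
  have hθq1 : theta (H ^ (q + 1)) = ((q : LaurentSeries ℤ) + 1) * H ^ q * theta H := by
    have h := theta_pow H q
    rw [h]
    push_cast
    ring
  rw [hk, thetaSum_add, thetaSum_add, thetaSum_add, thetaSum_monomial, thetaSum_monomial,
    thetaSum_monomial, thetaSum_monomial, theta_one, map_neg, map_neg, hθq, hθq1]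
  simp only [map_zero, map_neg, map_mul, map_pow, map_add, map_one, map_natCast, zero_mul,
    pow_one, pow_zero, mul_one]
  have hpow : qExpand ℤ q H ^ q = qExpand ℤ q H ^ (q - 1) * qExpand ℤ q H := by
    rw [← pow_succ, hq1]
  rw [hpow]
  ring

/-- **THETA-ID** for the Hauptmodul of level 4 (series over `ℤ`). -/
theorem thetaId (hq2 : q ≠ 2) :
    ∃ (m : ℕ) (R : Polynomial (Polynomial ℤ)),
      ∀ Pst : Polynomial (LaurentSeries ℤ),
        (X - C (h4S ℤ)) * Pst = (heckeU q (h4S ℤ)).map (qExpand ℤ q) →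
        (sH1 ℤ q * (sH1 ℤ q + 16)) ^ m * (Pst.eval (h4S ℤ) * theta (h4S ℤ)) =
          (q : LaurentSeries ℤ) * qExpand ℤ q (theta (h4S ℤ)) *
            ((sH1 ℤ q * (sH1 ℤ q + 16)) ^ m * sY1 ℤ q -
              (q : LaurentSeries ℤ) * (R.map (evalAt (sH1 ℤ q))).eval (h4S ℤ)) := by
  obtain ⟨n, Ψ₀, Ψ, -, hΨdeg, hΨ, hlink⟩ := exists_kronecker_h4Z_link q hq2
  have hH : h4S ℤ = h4Z := h4S_int
  set H : LaurentSeries ℤ := h4Z with hHdef
  set H1 : LaurentSeries ℤ := qExpand ℤ q H with hH1def
  set a : LaurentSeries ℤ := (H * (H + 16)) ^ n with hadef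
  set a1 : LaurentSeries ℤ := (H1 * (H1 + 16)) ^ n with ha1def
  let DD : Polynomial ℤ := (X * (X + 16)) ^ n
  have hDD : evalAt H DD = a := by
    simp only [DD, map_mul, map_pow, map_add, evalAt_h4Z_X, map_ofNat, hHdef, hadef]
  have ha1 : qExpand ℤ q a = a1 := by
    simp only [hadef, ha1def, hH1def, map_pow, map_mul, map_add, map_ofNat]
  let T : ℕ → Polynomial ℤ := fun i =>
    DD * derivative (Ψ₀.coeff i) - derivative DD * Ψ₀.coeff i
  have hcoef : ∀ i, evalAt H (Ψ₀.coeff i) = a * Ψ.coeff i := by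
    intro i
    have h := congrArg (fun P : Polynomial (LaurentSeries ℤ) => P.coeff i) hlink
    simpa [Polynomial.coeff_map, Polynomial.coeff_C_mul] using h
  have hθa : theta a = evalAt H (derivative DD) * theta H := by
    rw [← hDD, theta_evalAt]
  have hT : ∀ i, a ^ 2 * theta (Ψ.coeff i) = evalAt H (T i) * theta H := by
    intro i
    have h1 := congrArg theta (hcoef i)
    rw [theta_evalAt, theta_mul] at h1
    simp only [T, map_sub, map_mul, hDD, hcoef]
    linear_combination (-a) * h1 - (a * Ψ.coeff i) * hθa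
  -- the `Ψ`-part of the theta sum
  have hSΨ : a1 ^ 2 * thetaSum q H Ψ =
      qExpand ℤ q (theta H) * ∑ i ∈ Finset.range (q + 1), evalAt H1 (T i) * H ^ i := by
    rw [thetaSum_eq_sum q H Ψ (q + 1) (Nat.lt_succ_of_le hΨdeg), Finset.mul_sum, Finset.mul_sum]
    refine Finset.sum_congr rfl fun i _ => ?_
    have h := congrArg (qExpand ℤ q) (hT i)
    rw [map_mul, map_pow, ha1, map_mul, qExpand_evalAt] at h
    linear_combination (H ^ i) * h
  -- the polynomial `R`
  let Rk : Polynomial (Polynomial ℤ) := C (DD ^ 2 * X ^ (q - 1)) * (C X - X ^ q)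
  let R₀ : Polynomial (Polynomial ℤ) := ∑ i ∈ Finset.range (q + 1), C (T i) * X ^ i
  have hDD1 : evalAt H1 DD = a1 := by
    rw [← ha1, ← hDD, qExpand_evalAt]
  have hX1 : evalAt H1 (X : Polynomial ℤ) = H1 := by
    simp [evalAt]
  have hRk : (Rk.map (evalAt H1)).eval H = a1 ^ 2 * H1 ^ (q - 1) * (H1 - H ^ q) := by
    simp only [Rk, Polynomial.map_mul, Polynomial.map_sub, Polynomial.map_pow, Polynomial.map_C,
      Polynomial.map_X, eval_mul, eval_sub, eval_pow, eval_C, eval_X, map_mul, map_pow, hDD1, hX1]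
  have hR₀ : (R₀.map (evalAt H1)).eval H = ∑ i ∈ Finset.range (q + 1), evalAt H1 (T i) * H ^ i := by
    simp only [R₀, Polynomial.map_sum, Polynomial.map_mul, Polynomial.map_pow, Polynomial.map_C,
      Polynomial.map_X, Polynomial.eval_finsetSum, eval_mul, eval_pow, eval_C, eval_X]
  refine ⟨2 * n, Rk + R₀, fun Pst h => ?_⟩
  rw [hH] at h ⊢
  have hsH1 : sH1 ℤ q = H1 := by
    rw [sH1, hH]
  have hsY1 : sY1 ℤ q = H - H1 ^ q := by
    rw [sY1, sH, hsH1, hH]
  rw [hsH1, hsY1, Polynomial.map_add, eval_add, hRk, hR₀]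
  have hP0 : ((heckeU q H).map (qExpand ℤ q)).eval H = 0 := by
    rw [← h]
    simp
  have hP1 : (derivative ((heckeU q H).map (qExpand ℤ q))).eval H = Pst.eval H := by
    rw [← h]
    simp [derivative_mul]
  have hθ := theta_eval_map q H (heckeU q H)
  rw [hP0, map_zero, hP1, hΨ, thetaSum_add, thetaSum_zsmul, thetaSum_kronU] at hθ
  have hpow : (H1 * (H1 + 16)) ^ (2 * n) = a1 ^ 2 := by
    rw [ha1def, ← pow_mul, mul_comm n 2]
  rw [hpow]
  push_cast at hθ
  linear_combination (-a1 ^ 2) * hθ - (q : LaurentSeries ℤ) ^ 2 * hSΨ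

end main

end Fermat.Agent.H38.SS2
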