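/-
helper38 (P-SS2 row 1046, THETA-ID + NORM-ID), part 5: the MODEL-LEVEL statement.

Level `L = M' q` (`4 ∣ M'`, `q` an odd prime, `q ∤ M'`), `E' = ModelField K₁ (M' q)`,
`E₀ = ModelField K₁ (M' q q)`, `α = heckeAlphaBar` (inclusion), `Z = H2 - H`.  Then

  `N_α(Z) = q · w · u`,  `w = -Θ / D(H1)^m`,  `u = D(H1)^m Y1 - q R(H1, H)`,

`Θ = (θH)(t^q) / θH ∈ E'`, `R ∈ ℤ[X][Y]`, `D(x) = x (x + 16)`.

CONDITIONAL on helper1's `Fermat.Agent.H1.SS2.ModelE1Statement M' q` (degree `q` along `α` and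
generation of `E₀` by `H2` over `α E'`).
-/
import Fermat.Agent.H38.SS2.ThetaId
import Fermat.Agent.H38.SS2.NormGen
import Fermat.Agent.H38.SS2.RootH
import Fermat.Agent.H1.SS2.Deg3Defs

set_option autoImplicit false
set_option linter.style.haveILetI false
set_option linter.unusedSimpArgs false
set_option linter.unusedSectionVars false
set_option maxHeartbeats 400000

noncomputable section

open Polynomial ModularCurve AlgebraicCurve IntermediateField

namespace Fermat.Agent.H38.SS2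

open Fermat.Agent.H22.KL Fermat.Agent.H8.SS Fermat.Agent.H6.SS2 Fermat.Agent.H27
  Fermat.Agent.H86.SS2 Fermat.Agent.H1.SS2

/-- **NORM-ID + THETA-ID, model level** (the statement of row 1046). -/
def NormThetaStatement (M' q : ℕ) [NeZero M'] [NeZero q] : Prop :=
  q.Prime → q ≠ 2 → 4 ∣ M' → ¬ q ∣ M' →
  ∃ (m : ℕ) (R : Polynomial (Polynomial ℤ)),
    ∀ (K₁ : Type) [Field K₁] [Algebra ℚ K₁] [FiniteDimensional ℚ K₁]
      (Z : ModelField K₁ (M' * q * q)), (Z : LaurentSeries K₁) = sZ K₁ q →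
      ∃ Θ u w : ModelField K₁ (M' * q),
        (Θ : LaurentSeries K₁) * theta (sH K₁) = qExpand K₁ q (theta (sH K₁)) ∧
        (u : LaurentSeries K₁) = (sH1 K₁ q * (sH1 K₁ q + 16)) ^ m * sY1 K₁ q -
            (q : LaurentSeries K₁) * (R.map (evalAt (sH1 K₁ q))).eval (sH K₁) ∧
        (∀ Hm H1m : ModelField K₁ (M' * q), (Hm : LaurentSeries K₁) = sH K₁ →
          (H1m : LaurentSeries K₁) = sH1 K₁ q →
          u = (H1m * (H1m + 16)) ^ m * (Hm - H1m ^ q) -
            (q : ModelField K₁ (M' * q)) *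
              (R.map (Polynomial.eval₂RingHom
                (Int.castRingHom (ModelField K₁ (M' * q))) H1m)).eval Hm) ∧
        (w : LaurentSeries K₁) * (sH1 K₁ q * (sH1 K₁ q + 16)) ^ m = -(Θ : LaurentSeries K₁) ∧
        @Algebra.norm (ModelField K₁ (M' * q)) (ModelField K₁ (M' * q * q)) _ _
          (heckeAlphaBar K₁ (M' * q) q).toRingHom.toAlgebra Z =
            (q : ModelField K₁ (M' * q)) * w * u

/-! ### Transport of the series identities to `K₁((t))` -/

section transport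

variable (K₁ : Type) [Field K₁] [Algebra ℚ K₁]

/-- the coefficient map `ℤ((t)) → K₁((t))` -/
abbrev iotaK : LaurentSeries ℤ →+* LaurentSeries K₁ := coeffMap (Int.castRingHom K₁)

theorem iotaK_injective : Function.Injective (iotaK K₁) := by
  haveI : CharZero K₁ := algebraRat.charZero K₁
  exact Fermat.Agent.H67.coeffMap_injective_of_injective _ (RingHom.injective_int _)

theorem iotaK_h4S : iotaK K₁ (h4S ℤ) = h4S K₁ := coeffMap_h4S _

theorem iotaK_qExpand (q : ℕ) [NeZero q] (x : LaurentSeries ℤ) :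
    iotaK K₁ (qExpand ℤ q x) = qExpand K₁ q (iotaK K₁ x) :=
  ModularCurve.coeffMap_qExpand _ _ _

theorem iotaK_theta (x : LaurentSeries ℤ) : iotaK K₁ (theta x) = theta (iotaK K₁ x) :=
  coeffMap_theta _ _

theorem iotaK_evalAt (x : LaurentSeries ℤ) (Q : Polynomial ℤ) :
    iotaK K₁ (evalAt x Q) = evalAt (iotaK K₁ x) Q :=
  RingHom.congr_fun (Fermat.Agent.H67.coeffMap_comp_evalAt (Int.castRingHom K₁) x) Q

theorem iotaK_eval (P : Polynomial (LaurentSeries ℤ)) (x : LaurentSeries ℤ) :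
    iotaK K₁ (P.eval x) = (P.map (iotaK K₁)).eval (iotaK K₁ x) := by
  rw [Polynomial.eval_map (iotaK K₁) (iotaK K₁ x), Polynomial.eval₂_at_apply]

theorem iotaK_evalEval (R : Polynomial (Polynomial ℤ)) (x y : LaurentSeries ℤ) :
    iotaK K₁ ((R.map (evalAt x)).eval y) = (R.map (evalAt (iotaK K₁ x))).eval (iotaK K₁ y) := by
  rw [iotaK_eval, Polynomial.map_map, Fermat.Agent.H67.coeffMap_comp_evalAt]

theorem h4S_K_ne_zero : h4S K₁ ≠ 0 := h4S_ne_zero K₁

theorem theta_h4S_ne_zero : theta (h4S K₁) ≠ 0 := by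
  haveI : CharZero K₁ := algebraRat.charZero K₁
  intro h0
  have h1 := congrArg (fun z : LaurentSeries K₁ => z.coeff (-1)) h0
  simp only [theta_coeff, h4S_coeff_neg_one, HahnSeries.coeff_zero] at h1
  norm_num at h1

theorem dH1_ne_zero (q : ℕ) [NeZero q] (m : ℕ) :
    (sH1 K₁ q * (sH1 K₁ q + 16)) ^ m ≠ 0 := by
  apply pow_ne_zero
  apply mul_ne_zero
  · intro h0
    have h1 : qExpand K₁ q (h4S K₁) = qExpand K₁ q 0 := by
      rw [map_zero]
      exact h0
    exact h4S_ne_zero K₁ (qExpand_injective q h1)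
  · intro h0
    have h1 : qExpand K₁ q (h4S K₁ + 16) = qExpand K₁ q 0 := by
      rw [map_zero, map_add, map_ofNat]
      exact h0
    exact h4S_add_sixteen_ne_zero K₁ (qExpand_injective q h1)

end transport

/-! ### Descent of the cofactor to the model field -/

section descent

variable (K₁ : Type) [Field K₁] [Algebra ℚ K₁] (N q : ℕ) [NeZero N] [NeZero q]
  [hq : Fact q.Prime]

/-- the inclusion of the model field into `K₁((t))` -/
abbrev toSer : ModelField K₁ N →+* LaurentSeries K₁ :=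
  (laurentBaseChange K₁ (modularFunctionFieldFull N)).val.toRingHom

omit [NeZero N] in
theorem toSer_apply (x : ModelField K₁ N) : toSer K₁ N x = (x : LaurentSeries K₁) := rfl

omit [NeZero N] in
theorem toSer_injective : Function.Injective (toSer K₁ N) := Subtype.val_injective

omit [NeZero N] in
theorem toSer_comp_eval₂ (x : ModelField K₁ N) :
    (toSer K₁ N).comp (Polynomial.eval₂RingHom (Int.castRingHom (ModelField K₁ N)) x) =
      evalAt (x : LaurentSeries K₁) := by
  apply Polynomial.ringHom_ext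
  · intro n
    simp [evalAt]
  · simp [evalAt]

/-- **Descent of the cofactor**: the cofactor `P*` (over `ℤ((t))`) has coefficients in the model
field of any level `N` containing `H` and `H1`. -/
theorem exists_model_cofactor (hq2 : q ≠ 2) (Pst : Polynomial (LaurentSeries ℤ))
    (hPmul : (X - C (h4S ℤ)) * Pst = (heckeU q (h4S ℤ)).map (qExpand ℤ q))
    (Hm H1m : ModelField K₁ N) (hHm : (Hm : LaurentSeries K₁) = sH K₁)
    (hH1m : (H1m : LaurentSeries K₁) = sH1 K₁ q) :
    ∃ Pst' : Polynomial (ModelField K₁ N), Pst'.map (toSer K₁ N) = Pst.map (iotaK K₁) := by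
  obtain ⟨n, Ψ₀, Ψ, -, -, hΨ, hlink⟩ := exists_kronecker_h4Z_link q hq2
  rw [← h4S_int] at hΨ hlink
  have hfH : toSer K₁ N Hm = h4S K₁ := hHm
  have hfH1 : toSer K₁ N H1m = qExpand K₁ q (h4S K₁) := hH1m
  have hgH : (iotaK K₁).comp (qExpand ℤ q) (h4S ℤ) = toSer K₁ N H1m := by
    rw [hfH1, RingHom.comp_apply, iotaK_qExpand, iotaK_h4S]
  have hPK' : ((heckeU q (h4S ℤ)).map (qExpand ℤ q)).map (iotaK K₁) =
      (heckeU q (h4S ℤ)).map ((iotaK K₁).comp (qExpand ℤ q)) := by
    rw [Polynomial.map_map]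
  -- the numerator
  have hfa' : toSer K₁ N ((H1m * (H1m + 16)) ^ n) =
      (iotaK K₁).comp (qExpand ℤ q) ((h4S ℤ * (h4S ℤ + 16)) ^ n) := by
    rw [map_pow, map_mul, map_add, map_ofNat, map_pow, map_mul, map_add, map_ofNat, hgH]
  have ha'0 : (H1m * (H1m + 16)) ^ n ≠ 0 := by
    intro h0
    have h1 : toSer K₁ N ((H1m * (H1m + 16)) ^ n) = 0 := by rw [h0, map_zero]
    rw [map_pow, map_mul, map_add, map_ofNat, hfH1] at h1
    exact dH1_ne_zero K₁ q n h1
  have hkron : (kronU q (h4S ℤ)).map ((iotaK K₁).comp (qExpand ℤ q)) =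
      (X - C (toSer K₁ N H1m ^ q)) * (X ^ q - C (toSer K₁ N H1m)) := by
    rw [kronU, Polynomial.map_mul, Polynomial.map_sub, Polynomial.map_X, Polynomial.map_C,
      Polynomial.map_sub, Polynomial.map_pow, Polynomial.map_X, Polynomial.map_C, map_pow, hgH]
  have hΨg : C ((iotaK K₁).comp (qExpand ℤ q) ((h4S ℤ * (h4S ℤ + 16)) ^ n)) *
      Ψ.map ((iotaK K₁).comp (qExpand ℤ q)) =
      Ψ₀.map (evalAt (H1m : LaurentSeries K₁)) := by
    have h1 := congrArg (Polynomial.map ((iotaK K₁).comp (qExpand ℤ q))) hlink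
    rw [Polynomial.map_map, Polynomial.map_mul, Polynomial.map_C] at h1
    rw [← h1]
    congr 1
    rw [RingHom.comp_assoc]
    have h2 : (qExpand ℤ q).comp (evalAt (h4S ℤ)) = evalAt (qExpand ℤ q (h4S ℤ)) :=
      comp_evalAt _ _
    rw [h2, Fermat.Agent.H67.coeffMap_comp_evalAt]
    have h3 : coeffMap (Int.castRingHom K₁) (qExpand ℤ q (h4S ℤ)) = (H1m : LaurentSeries K₁) :=
      hgH
    rw [h3]
  have h3 : ((q : ℤ) • Ψ).map ((iotaK K₁).comp (qExpand ℤ q)) =
      C (q : LaurentSeries K₁) * Ψ.map ((iotaK K₁).comp (qExpand ℤ q)) := by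
    rw [zsmul_eq_mul, Polynomial.map_mul]
    simp
  have hN'map : (C ((H1m * (H1m + 16)) ^ n) * ((X - C (H1m ^ q)) * (X ^ q - C H1m)) +
      C (q : ModelField K₁ N) *
        Ψ₀.map (Polynomial.eval₂RingHom (Int.castRingHom (ModelField K₁ N)) H1m)).map
          (toSer K₁ N) =
      C (toSer K₁ N ((H1m * (H1m + 16)) ^ n)) *
        (heckeU q (h4S ℤ)).map ((iotaK K₁).comp (qExpand ℤ q)) := by
    rw [Polynomial.map_add, Polynomial.map_mul, Polynomial.map_C, Polynomial.map_mul,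
      Polynomial.map_sub, Polynomial.map_X, Polynomial.map_C, Polynomial.map_sub,
      Polynomial.map_pow, Polynomial.map_X, Polynomial.map_C, Polynomial.map_mul,
      Polynomial.map_C, Polynomial.map_map, toSer_comp_eval₂, map_pow, map_natCast,
      hΨ, Polynomial.map_add, hkron, h3, mul_add, ← hΨg, ← hfa']
    simp only [map_pow]
    ring_nf
  set P' : Polynomial (ModelField K₁ N) := C ((H1m * (H1m + 16)) ^ n)⁻¹ *
    (C ((H1m * (H1m + 16)) ^ n) * ((X - C (H1m ^ q)) * (X ^ q - C H1m)) +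
      C (q : ModelField K₁ N) *
        Ψ₀.map (Polynomial.eval₂RingHom (Int.castRingHom (ModelField K₁ N)) H1m)) with hP'
  have hP'map : P'.map (toSer K₁ N) =
      (heckeU q (h4S ℤ)).map ((iotaK K₁).comp (qExpand ℤ q)) := by
    rw [hP', Polynomial.map_mul, Polynomial.map_C, hN'map, ← mul_assoc, ← C_mul, map_inv₀,
      inv_mul_cancel₀ (by rw [Ne, map_eq_zero]; exact ha'0), C_1, one_mul]
  -- the root `H`
  have hmulK : (X - C (toSer K₁ N Hm)) * Pst.map (iotaK K₁) =
      (heckeU q (h4S ℤ)).map ((iotaK K₁).comp (qExpand ℤ q)) := by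
    have h1 := congrArg (Polynomial.map (iotaK K₁)) hPmul
    rw [Polynomial.map_mul, Polynomial.map_sub, Polynomial.map_X, Polynomial.map_C, hPK',
      iotaK_h4S] at h1
    rw [hfH]
    exact h1
  have hroot : P'.IsRoot Hm := by
    apply toSer_injective K₁ N
    rw [map_zero]
    have h1 : toSer K₁ N (P'.eval Hm) = (P'.map (toSer K₁ N)).eval (toSer K₁ N Hm) := by
      rw [Polynomial.eval_map (toSer K₁ N) (toSer K₁ N Hm), Polynomial.eval₂_at_apply]
    rw [h1, hP'map, ← hmulK]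
    simp
  have hmul' : (X - C Hm) * (P' /ₘ (X - C Hm)) = P' :=
    Polynomial.mul_divByMonic_eq_iff_isRoot.mpr hroot
  refine ⟨P' /ₘ (X - C Hm), ?_⟩
  have h1 := congrArg (Polynomial.map (toSer K₁ N)) hmul'
  rw [Polynomial.map_mul, Polynomial.map_sub, Polynomial.map_X, Polynomial.map_C, hP'map,
    ← hmulK] at h1
  exact mul_left_cancel₀ (Polynomial.X_sub_C_ne_zero _) h1

end descent

end Fermat.Agent.H38.SS2
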