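/-
helper38 (P-SS2 row 1046, THETA-ID + NORM-ID), part 6: the MODEL-LEVEL theorem.

`normTheta M' q : ModelE1Statement M' q → NormThetaStatement M' q`.
-/
import Fermat.Agent.H38.SS2.NormTheta

set_option autoImplicit false
set_option linter.style.haveILetI false
set_option linter.unusedSimpArgs false
set_option linter.unusedSectionVars false
set_option linter.unusedVariables false
set_option maxHeartbeats 800000

noncomputable section

open Polynomial ModularCurve AlgebraicCurve IntermediateField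

namespace Fermat.Agent.H38.SS2

open Fermat.Agent.H22.KL Fermat.Agent.H8.SS Fermat.Agent.H6.SS2 Fermat.Agent.H27
  Fermat.Agent.H86.SS2 Fermat.Agent.H1.SS2

section series

variable (K₁ : Type) [Field K₁] [Algebra ℚ K₁] (q : ℕ) [NeZero q]

theorem iotaK_sH1 : iotaK K₁ (sH1 ℤ q) = sH1 K₁ q := by
  rw [sH1, sH1, iotaK_qExpand, iotaK_h4S]

theorem iotaK_sY1 : iotaK K₁ (sY1 ℤ q) = sY1 K₁ q := by
  rw [sY1, sY1, map_sub, map_pow, iotaK_sH1, sH, sH, iotaK_h4S]

/-- the series identity over `K₁` -/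
theorem thetaId_K (m : ℕ) (R : Polynomial (Polynomial ℤ)) (Pst : Polynomial (LaurentSeries ℤ))
    (h : (sH1 ℤ q * (sH1 ℤ q + 16)) ^ m * (Pst.eval (h4S ℤ) * theta (h4S ℤ)) =
          (q : LaurentSeries ℤ) * qExpand ℤ q (theta (h4S ℤ)) *
            ((sH1 ℤ q * (sH1 ℤ q + 16)) ^ m * sY1 ℤ q -
              (q : LaurentSeries ℤ) * (R.map (evalAt (sH1 ℤ q))).eval (h4S ℤ))) :
    (sH1 K₁ q * (sH1 K₁ q + 16)) ^ m *
        ((Pst.map (iotaK K₁)).eval (h4S K₁) * theta (h4S K₁)) =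
      (q : LaurentSeries K₁) * qExpand K₁ q (theta (h4S K₁)) *
        ((sH1 K₁ q * (sH1 K₁ q + 16)) ^ m * sY1 K₁ q -
          (q : LaurentSeries K₁) * (R.map (evalAt (sH1 K₁ q))).eval (h4S K₁)) := by
  have h1 := congrArg (iotaK K₁) h
  rw [map_mul, map_pow, map_mul, map_add, map_ofNat, map_mul, map_mul, map_mul, map_sub,
    map_mul, map_mul, map_pow, map_mul, map_add, map_ofNat, map_natCast, iotaK_sH1, iotaK_sY1,
    iotaK_evalEval, iotaK_sH1, iotaK_h4S, iotaK_qExpand, iotaK_theta, iotaK_h4S, iotaK_eval,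
    iotaK_h4S] at h1
  exact h1

end series

section maps

variable (K₁ : Type) [Field K₁] [Algebra ℚ K₁] (N q : ℕ) [NeZero N] [NeZero q]

theorem toSer_heckeAlphaBar (x : ModelField K₁ N) :
    toSer K₁ (N * q) (heckeAlphaBar K₁ N q x) = toSer K₁ N x :=
  coe_heckeAlphaBar N q x

omit [NeZero N] in
theorem toSer_heckeBetaBar (x : ModelField K₁ N) :
    toSer K₁ (N * q) (heckeBetaBar K₁ N q x) = qExpand K₁ q (toSer K₁ N x) :=
  coe_heckeBetaBar N q x

theorem toSer_comp_algebraMap :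
    letI : Algebra (ModelField K₁ N) (ModelField K₁ (N * q)) :=
      (heckeAlphaBar K₁ N q).toRingHom.toAlgebra
    (toSer K₁ (N * q)).comp (algebraMap (ModelField K₁ N) (ModelField K₁ (N * q))) =
      toSer K₁ N := by
  letI : Algebra (ModelField K₁ N) (ModelField K₁ (N * q)) :=
      (heckeAlphaBar K₁ N q).toRingHom.toAlgebra
  have halg : algebraMap (ModelField K₁ N) (ModelField K₁ (N * q)) =
      (heckeAlphaBar K₁ N q).toRingHom := RingHom.algebraMap_toAlgebra _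
  rw [halg]
  apply RingHom.ext
  intro x
  rw [RingHom.comp_apply, AlgHom.toRingHom_eq_coe, RingHom.coe_coe, toSer_heckeAlphaBar]

end maps


/-- **NORM-ID + THETA-ID, model level** (row 1046), conditional on helper1's (E1). -/
theorem normTheta (M' q : ℕ) [NeZero M'] [NeZero q] (hE1 : ModelE1Statement M' q) :
    NormThetaStatement M' q := by
  intro hq hq2 h4 hqM
  haveI : Fact q.Prime := ⟨hq⟩
  obtain ⟨m, R, hθid⟩ := thetaId q hq2
  obtain ⟨Pst, hPmonic, hPdeg, hPmul, hProot⟩ :=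
    exists_cofactor q (h4S ℤ) (h4S_coeff_neg_one ℤ)
  obtain ⟨B, hB, hBne⟩ := normZ_gen q (h4S ℤ) (h4S_coeff_neg_one ℤ)
    (fun n hn => h4S_coeff_of_lt ℤ hn) Pst hPmul
  have hPne : Pst.eval (h4S ℤ) ≠ 0 := by
    intro h0
    rw [h0] at hB
    have hq0 : (q : LaurentSeries ℤ) ≠ 0 := by
      intro h0
      have h1 : (HahnSeries.C ((q : ℕ) : ℤ) : LaurentSeries ℤ) = 0 := by
        rw [map_natCast]
        exact h0
      have h2 := HahnSeries.C_injective (h1.trans (map_zero _).symm)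
      exact NeZero.ne q (by exact_mod_cast h2)
    have hB0 : B = 0 := (mul_eq_zero.mp hB.symm).resolve_left hq0
    exact hBne (by rw [hB0, map_zero])
  have hid := hθid Pst hPmul
  refine ⟨m, R, ?_⟩
  intro K₁ _ _ _ Z hZ
  haveI : CharZero K₁ := algebraRat.charZero K₁
  have hidK := thetaId_K K₁ q m R Pst hid
  have h4q : 4 ∣ M' * q := dvd_mul_of_dvd_left h4 q
  -- the elements
  set Hm : ModelField K₁ (M' * q) := ⟨h4S K₁, h4S_mem_laurentBaseChange K₁ (M' * q) h4q⟩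
    with hHm
  set H0 : ModelField K₁ M' := ⟨h4S K₁, h4S_mem_laurentBaseChange K₁ M' h4⟩ with hH0
  set H1m : ModelField K₁ (M' * q) := heckeBetaBar K₁ M' q H0 with hH1m
  set H2m : ModelField K₁ (M' * q * q) := heckeBetaBar K₁ (M' * q) q H1m with hH2m
  have hcHm : toSer K₁ (M' * q) Hm = h4S K₁ := rfl
  have hcH1m : toSer K₁ (M' * q) H1m = sH1 K₁ q := by
    rw [hH1m, toSer_heckeBetaBar]
    rfl
  have hcH2m : toSer K₁ (M' * q * q) H2m = qExpand K₁ q (qExpand K₁ q (h4S K₁)) := by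
    rw [hH2m, toSer_heckeBetaBar, hH1m, toSer_heckeBetaBar]
    rfl
  -- the cofactor over the model field
  obtain ⟨Pst', hPst'⟩ :=
    exists_model_cofactor K₁ (M' * q) q hq2 Pst hPmul Hm H1m hcHm hcH1m
  have hPst'monic : Pst'.Monic := by
    apply Polynomial.monic_of_injective (toSer_injective K₁ (M' * q))
    rw [hPst']
    exact hPmonic.map _
  have hPst'deg : Pst'.natDegree = q := by
    rw [← Polynomial.natDegree_map_eq_of_injective (toSer_injective K₁ (M' * q)) Pst', hPst',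
      hPmonic.natDegree_map, hPdeg]
  -- the algebra structure along `α`, degree and generation
  letI alg : Algebra (ModelField K₁ (M' * q)) (ModelField K₁ (M' * q * q)) :=
    (heckeAlphaBar K₁ (M' * q) q).toRingHom.toAlgebra
  have hcop : Nat.Coprime M' q := ((Nat.Prime.coprime_iff_not_dvd hq).mpr hqM).symm
  obtain ⟨hdeg3, -, hgenα⟩ := hE1 hq hcop
  obtain ⟨⟨hfin, hrank⟩, -⟩ := hdeg3 K₁
  haveI hfin' : Module.Finite (ModelField K₁ (M' * q)) (ModelField K₁ (M' * q * q)) := hfin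
  have hrank' : Module.finrank (ModelField K₁ (M' * q)) (ModelField K₁ (M' * q * q)) = q :=
    hrank
  have hmemQ : h4S ℚ ∈ modularFunctionFieldFull M' := by
    have h := h4S_mem_fullC ℚ (by norm_num) M' h4
    rwa [modularFunctionFieldFullC_rat] at h
  have hoff : HasCoeffOff q (h4S ℚ) := by
    refine ⟨-1, ?_, ?_⟩
    · intro hd
      have h4 : (q : ℤ) ∣ 1 := (Int.dvd_neg).mp hd
      have h5 := Int.eq_one_of_dvd_one (by positivity) h4
      have h6 : q = 1 := by exact_mod_cast h5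
      exact hq.one_lt.ne' h6
    · rw [h4S_coeff_neg_one]
      exact one_ne_zero
  have hgen := hgenα (h4S ℚ) hmemQ hoff K₁ H1m (by
    rw [coeffEmb, ModularCurve.coeffMap_qExpand, coeffMap_h4S]
    exact hcH1m)
  have htop : (ModelField K₁ (M' * q))⟮H2m⟯ = ⊤ := by
    apply adjoin_simple_eq_top_of_gen
    intro z
    obtain ⟨p, -, hp⟩ := hgen z
    refine ⟨p, ?_⟩
    rw [hp, Polynomial.aeval_def, RingHom.algebraMap_toAlgebra]
    rfl
  -- the root
  have hcomp : (toSer K₁ (M' * q * q)).comp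
      (algebraMap (ModelField K₁ (M' * q)) (ModelField K₁ (M' * q * q))) =
      toSer K₁ (M' * q) := toSer_comp_algebraMap K₁ (M' * q) q
  have hcH2m' : toSer K₁ (M' * q * q) H2m = iotaK K₁ (qExpand ℤ q (qExpand ℤ q (h4S ℤ))) := by
    rw [iotaK_qExpand, iotaK_qExpand, iotaK_h4S, hcH2m]
  have hroot : Polynomial.aeval H2m Pst' = 0 := by
    apply toSer_injective K₁ (M' * q * q)
    rw [map_zero, Polynomial.aeval_def, Polynomial.hom_eval₂, hcomp, ← Polynomial.eval_map,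
      hPst', hcH2m', ← iotaK_eval, hProot, map_zero]
  -- the norm
  have hnorm := norm_sub_of_gen q hrank' H2m htop Pst' hPst'monic hPst'deg hroot Hm
  have hZeq : Z = H2m - algebraMap (ModelField K₁ (M' * q)) (ModelField K₁ (M' * q * q)) Hm := by
    apply toSer_injective K₁ (M' * q * q)
    rw [map_sub, ← RingHom.comp_apply, hcomp, hcH2m, hcHm]
    exact hZ
  have hodd : (-1 : ModelField K₁ (M' * q)) ^ q = -1 := (hq.odd_of_ne_two hq2).neg_one_pow
  rw [← hZeq, hodd] at hnorm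
  -- the elements `D`, `u`, `Θ`, `w`
  haveI hchar : CharZero (ModelField K₁ (M' * q)) :=
    charZero_of_injective_algebraMap (algebraMap K₁ (ModelField K₁ (M' * q))).injective
  have hq0 : (q : ModelField K₁ (M' * q)) ≠ 0 := Nat.cast_ne_zero.mpr hq.ne_zero
  have hq0' : (q : LaurentSeries K₁) ≠ 0 := by
    have h1 : toSer K₁ (M' * q) (q : ModelField K₁ (M' * q)) = (q : LaurentSeries K₁) :=
      map_natCast _ _
    rw [← h1]
    exact fun h0 => hq0 (toSer_injective K₁ (M' * q) (h0.trans (map_zero _).symm))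
  obtain ⟨D, hD⟩ : ∃ D : ModelField K₁ (M' * q), D = (H1m * (H1m + 16)) ^ m := ⟨_, rfl⟩
  obtain ⟨Rm, hRm⟩ : ∃ Rm : ModelField K₁ (M' * q), Rm =
    (R.map (Polynomial.eval₂RingHom (Int.castRingHom (ModelField K₁ (M' * q))) H1m)).eval Hm :=
    ⟨_, rfl⟩
  obtain ⟨u, hu⟩ : ∃ u : ModelField K₁ (M' * q),
    u = D * (Hm - H1m ^ q) - (q : ModelField K₁ (M' * q)) * Rm := ⟨_, rfl⟩
  obtain ⟨Pe, hPe⟩ : ∃ Pe : ModelField K₁ (M' * q), Pe = Pst'.eval Hm := ⟨_, rfl⟩
  have hcD : toSer K₁ (M' * q) D = (sH1 K₁ q * (sH1 K₁ q + 16)) ^ m := by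
    rw [hD, map_pow, map_mul, map_add, map_ofNat, hcH1m]
  have hcRm : toSer K₁ (M' * q) Rm = (R.map (evalAt (sH1 K₁ q))).eval (h4S K₁) := by
    have h1 : toSer K₁ (M' * q) Rm =
        ((R.map (Polynomial.eval₂RingHom (Int.castRingHom (ModelField K₁ (M' * q))) H1m)).map
          (toSer K₁ (M' * q))).eval (toSer K₁ (M' * q) Hm) := by
      rw [hRm, Polynomial.eval_map (toSer K₁ (M' * q)) (toSer K₁ (M' * q) Hm),
        Polynomial.eval₂_at_apply]
    have h2 : evalAt ((H1m : ModelField K₁ (M' * q)) : LaurentSeries K₁) =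
        evalAt (sH1 K₁ q) := congrArg evalAt hcH1m
    rw [h1, Polynomial.map_map, toSer_comp_eval₂, h2, hcHm]
  have hcu : toSer K₁ (M' * q) u = (sH1 K₁ q * (sH1 K₁ q + 16)) ^ m * sY1 K₁ q -
      (q : LaurentSeries K₁) * (R.map (evalAt (sH1 K₁ q))).eval (h4S K₁) := by
    rw [hu, map_sub, map_mul, map_sub, map_pow, map_mul, map_natCast, hcD, hcRm, hcHm, hcH1m,
      sY1, sH]
  have hcPe : toSer K₁ (M' * q) Pe = (Pst.map (iotaK K₁)).eval (h4S K₁) := by
    rw [hPe, ← hPst', Polynomial.eval_map (toSer K₁ (M' * q)) (h4S K₁), ← hcHm,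
      Polynomial.eval₂_at_apply]
  have hkey : toSer K₁ (M' * q) D * (toSer K₁ (M' * q) Pe * theta (h4S K₁)) =
      (q : LaurentSeries K₁) * qExpand K₁ q (theta (h4S K₁)) * toSer K₁ (M' * q) u := by
    rw [hcD, hcPe, hcu]
    exact hidK
  have hθ0 : theta (h4S K₁) ≠ 0 := theta_h4S_ne_zero K₁
  have hD0' : toSer K₁ (M' * q) D ≠ 0 := by
    rw [hcD]
    exact dH1_ne_zero K₁ q m
  have hD0 : D ≠ 0 := fun h0 => hD0' (by rw [h0, map_zero])
  have hPe0' : toSer K₁ (M' * q) Pe ≠ 0 := by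
    rw [hcPe, ← iotaK_h4S K₁, ← iotaK_eval]
    exact fun h0 => hPne (iotaK_injective K₁ (h0.trans (map_zero _).symm))
  have hu0' : toSer K₁ (M' * q) u ≠ 0 := by
    intro h0
    rw [h0, mul_zero] at hkey
    exact mul_ne_zero hD0' (mul_ne_zero hPe0' hθ0) hkey
  have hu0 : u ≠ 0 := fun h0 => hu0' (by rw [h0, map_zero])
  obtain ⟨Θ, hΘ⟩ : ∃ Θ : ModelField K₁ (M' * q),
    Θ = D * Pe / ((q : ModelField K₁ (M' * q)) * u) := ⟨_, rfl⟩
  obtain ⟨w, hw⟩ : ∃ w : ModelField K₁ (M' * q), w = -Θ / D := ⟨_, rfl⟩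
  have hcΘ : toSer K₁ (M' * q) Θ =
      toSer K₁ (M' * q) D * toSer K₁ (M' * q) Pe /
        ((q : LaurentSeries K₁) * toSer K₁ (M' * q) u) := by
    rw [hΘ, map_div₀, map_mul, map_mul, map_natCast]
  have hcw : toSer K₁ (M' * q) w = -toSer K₁ (M' * q) Θ / toSer K₁ (M' * q) D := by
    rw [hw, map_div₀, map_neg]
  refine ⟨Θ, u, w, ?_, ?_, ?_, ?_, ?_⟩
  · show toSer K₁ (M' * q) Θ * theta (h4S K₁) = qExpand K₁ q (theta (h4S K₁))
    rw [hcΘ, div_mul_eq_mul_div, div_eq_iff (mul_ne_zero hq0' hu0')]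
    linear_combination hkey
  · exact hcu
  · intro Hm' H1m' h1 h2
    have e1 : Hm' = Hm := Subtype.ext (h1.trans hcHm.symm)
    have e2 : H1m' = H1m := Subtype.ext (h2.trans hcH1m.symm)
    rw [e1, e2, hu, hD, hRm]
  · show toSer K₁ (M' * q) w * (sH1 K₁ q * (sH1 K₁ q + 16)) ^ m = -toSer K₁ (M' * q) Θ
    rw [← hcD, hcw, div_mul_cancel₀ _ hD0']
  · rw [hnorm, hw, hΘ, ← hPe]
    field_simp

end Fermat.Agent.H38.SS2
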