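/-
helper38 (P-SS2 row 1046, THETA-ID + NORM-ID): the UNCONDITIONAL model-level theorem.

`normThetaU M' q : NormThetaStatement M' q`  (= `normTheta M' q (modelE1 M' q)`).
-/
import Fermat.Agent.H38.SS2.NormThetaMain
import Fermat.Agent.H38.SS2.Gen3

set_option autoImplicit false

namespace Fermat.Agent.H38.SS2

/-- **NORM-ID + THETA-ID, model level, unconditional** (row 1046). -/
theorem normThetaU (M' q : ℕ) [NeZero M'] [NeZero q] : NormThetaStatement M' q :=
  normTheta M' q (modelE1 M' q)

end Fermat.Agent.H38.SS2
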